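/-
S58lib / Cmp / AbsIrr (helper3), brick (C2): **absolute irreducibility from a comparison of
characteristic polynomials** — no Brauer–Nesbitt, no Burnside.

`ρ₀` a 2-dimensional representation of a group `G` over a field `k₀` with `2 ≠ 0`, irreducible
over `k₀`, and "odd": there is `c ∈ G` with `c² = 1` and `det ρ₀(c) = -1`.  `ρ` a 2-dimensional
representation of `G` over a field `k` with a homomorphism `ι : k₀ → k` such that trace and
determinant of `ρ(σ)` are the images of those of `ρ₀(σ)` for all `σ`.  Then `ρ ⊗ K` is irreducible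
for EVERY field extension `K / k`.

Proof: a stable line `K u` gives a character `a : G → Kˣ`; on the normal subgroup
`H = ker a ∩ ker (det ρ)` (which contains all commutators) `ρ` and hence `ρ₀` has trace `2` and
determinant `1`; by Kolchin (`S36lib.kolchin_two`) the space of `H`-fixed vectors of `ρ₀` is
nonzero, it is `G`-stable, hence everything: `ρ₀(G)` is commutative.  Then the eigenspace
`ker (ρ₀(c) - 1)` is `G`-stable, and it is neither `0` nor everything since `det ρ₀(c) = -1 ≠ 1`.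
-/
import Fermat.Agent.S36lib.Gal.Kolchin
import Fermat.Agent.S34lib.TC.Unip
import Fermat.Prelude.Def_GaloisRep_Residual

set_option autoImplicit false
set_option linter.unusedSectionVars false
set_option linter.style.haveILetI false

noncomputable section

namespace Fermat.Agent.S58lib.Cmp

open Matrix Polynomial
open scoped TensorProduct

/-! ### 2×2 matrices -/

section TwoByTwo

variable {K : Type*} [Field K]

/-- a 2×2 matrix of determinant `1` with a nonzero fixed vector has trace `2`. -/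
theorem trace_eq_two_of_fixed (B : Matrix (Fin 2) (Fin 2) K) {u : Fin 2 → K} (hu : u ≠ 0)
    (hB : B *ᵥ u = u) (hdet : B.det = 1) : B.trace = 2 := by
  have h0 : (B - 1).det = 0 := by
    apply Matrix.exists_mulVec_eq_zero_iff.mp
    exact ⟨u, hu, by rw [Matrix.sub_mulVec, hB, Matrix.one_mulVec, sub_self]⟩
  rw [Matrix.det_fin_two] at h0 hdet
  rw [Matrix.trace_fin_two]
  simp only [Matrix.sub_apply, Matrix.one_apply_eq, Matrix.one_apply_ne (zero_ne_one' (Fin 2)),
    Matrix.one_apply_ne (zero_ne_one' (Fin 2)).symm] at h0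
  linear_combination hdet - h0

/-- a matrix is determined by its action on vectors. -/
theorem eq_of_forall_mulVec_eq {R : Type*} [CommRing R] {A B : Matrix (Fin 2) (Fin 2) R}
    (h : ∀ x : Fin 2 → R, A *ᵥ x = B *ᵥ x) : A = B := by
  ext i j
  have := congrFun (h (Pi.single j 1)) i
  rwa [Matrix.mulVec_single_one, Matrix.mulVec_single_one] at this

end TwoByTwo

/-! ### the matrix form -/

section MatrixForm

variable {k₀ k K : Type*} [Field k₀] [Field k] [Field K] [Algebra k K]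
  {G : Type*} [Group G]

/-- a monoid homomorphism to a commutative monoid kills commutators. -/
theorem map_comm_eq_one {C : Type*} [CommMonoid C] (f : G →* C) (σ τ : G) :
    f (σ * τ * σ⁻¹ * τ⁻¹) = 1 := by
  rw [map_mul, map_mul, map_mul, mul_assoc (f σ), mul_comm (f τ), ← mul_assoc, ← map_mul,
    mul_assoc, ← map_mul, mul_inv_cancel, mul_inv_cancel, map_one, one_mul]

/-- a monoid homomorphism to a commutative monoid is constant on conjugacy classes. -/
theorem map_conj_eq {C : Type*} [CommMonoid C] (f : G →* C) (σ g : G) :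
    f (σ⁻¹ * g * σ) = f g := by
  rw [map_mul, map_mul, mul_comm (f σ⁻¹), mul_assoc, ← map_mul, inv_mul_cancel, map_one, mul_one]

/-- **(C2), matrix form.** -/
theorem irreducible_of_trace_det_eq (ι : k₀ →+* k) (h2 : (2 : k₀) ≠ 0)
    (M₀ : G →* Matrix (Fin 2) (Fin 2) k₀)
    (hirr : ∀ U : Submodule k₀ (Fin 2 → k₀), (∀ σ : G, ∀ x ∈ U, M₀ σ *ᵥ x ∈ U) → U = ⊥ ∨ U = ⊤)
    (c : G) (hc : c * c = 1) (hdet : (M₀ c).det = -1)
    (M : G →* Matrix (Fin 2) (Fin 2) k)
    (htr : ∀ σ : G, (M σ).trace = ι (M₀ σ).trace) (hdt : ∀ σ : G, (M σ).det = ι (M₀ σ).det)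
    (U : Submodule K (Fin 2 → K))
    (hU : ∀ σ : G, ∀ x ∈ U, ((M σ).map (algebraMap k K)) *ᵥ x ∈ U) :
    U = ⊥ ∨ U = ⊤ := by
  classical
  by_contra hcon
  push Not at hcon
  obtain ⟨hbot, htop⟩ := hcon
  -- the matrices over `K`
  let MK : G →* Matrix (Fin 2) (Fin 2) K :=
    ((algebraMap k K).mapMatrix : Matrix (Fin 2) (Fin 2) k →+* Matrix (Fin 2) (Fin 2) K).toMonoidHom.comp M
  have hMK : ∀ σ, MK σ = (M σ).map (algebraMap k K) := fun _ => rfl
  -- a generator of the line
  obtain ⟨u, huU, hu0⟩ := (Submodule.ne_bot_iff U).mp hbot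
  have hfr : Module.finrank K U = 1 := by
    have h1 : Module.finrank K U < Module.finrank K (Fin 2 → K) :=
      Submodule.finrank_lt htop
    rw [Module.finrank_fin_fun] at h1
    have h2 : 0 < Module.finrank K U := by
      rw [Module.finrank_pos_iff_exists_ne_zero]
      exact ⟨⟨u, huU⟩, fun h => hu0 (congrArg Subtype.val h)⟩
    omega
  have hgen : ∀ w ∈ U, ∃ a : K, a • u = w := by
    intro w hw
    have h1 := (finrank_eq_one_iff_of_nonzero' (⟨u, huU⟩ : U)
      (fun h => hu0 (congrArg Subtype.val h))).mp hfr ⟨w, hw⟩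
    obtain ⟨a, ha⟩ := h1
    exact ⟨a, congrArg Subtype.val ha⟩
  have hsc : ∀ σ : G, ∃ a : K, a • u = MK σ *ᵥ u := fun σ => hgen _ (hU σ u huU)
  choose a ha using hsc
  have hinj : Function.Injective fun b : K => b • u := smul_left_injective K hu0
  -- the character `a`
  let aHom : G →* K :=
    { toFun := a
      map_one' := by
        apply hinj
        show a 1 • u = (1 : K) • u
        rw [ha, map_one, Matrix.one_mulVec, one_smul]
      map_mul' := fun σ τ => by
        apply hinj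
        show a (σ * τ) • u = (a σ * a τ) • u
        rw [ha, map_mul, ← Matrix.mulVec_mulVec, ← ha τ, Matrix.mulVec_smul, ← ha σ, smul_smul,
          mul_comm] }
  have haHom : ∀ σ, aHom σ = a σ := fun _ => rfl
  let dHom : G →* k := (Matrix.detMonoidHom).comp M
  have hdHom : ∀ σ, dHom σ = (M σ).det := fun _ => rfl
  -- the set `H`
  let H : Set G := {g | aHom g = 1 ∧ dHom g = 1}
  have hHmul : ∀ σ ∈ H, ∀ τ ∈ H, σ * τ ∈ H := by
    rintro σ ⟨h1, h2⟩ τ ⟨h3, h4⟩
    exact ⟨by rw [map_mul, h1, h3, one_mul], by rw [map_mul, h2, h4, one_mul]⟩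
  have hHcomm : ∀ σ τ : G, σ * τ * σ⁻¹ * τ⁻¹ ∈ H := fun σ τ =>
    ⟨map_comm_eq_one aHom σ τ, map_comm_eq_one dHom σ τ⟩
  have hHconj : ∀ σ : G, ∀ g ∈ H, σ⁻¹ * g * σ ∈ H := by
    rintro σ g ⟨h1, h2⟩
    exact ⟨by rw [map_conj_eq, h1], by rw [map_conj_eq, h2]⟩
  -- trace `2`, determinant `1` on `H` for `M₀`
  have hιinj : Function.Injective ι := ι.injective
  have hH : ∀ g ∈ H, (M₀ g).trace = 2 ∧ (M₀ g).det = 1 := by
    rintro g ⟨h1, h2⟩
    rw [hdHom] at h2
    rw [haHom] at h1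
    have hfix : MK g *ᵥ u = u := by rw [← ha, h1, one_smul]
    have hdetK : (MK g).det = 1 := by
      rw [hMK, ← RingHom.mapMatrix_apply, ← RingHom.map_det, h2, map_one]
    have htrK : (MK g).trace = 2 := trace_eq_two_of_fixed (MK g) hu0 hfix hdetK
    have htrk : (M g).trace = 2 := by
      apply (algebraMap k K).injective
      rw [map_ofNat, ← htrK, hMK, AddMonoidHom.map_trace]
    constructor
    · apply hιinj
      rw [← htr, htrk, map_ofNat]
    · apply hιinj
      rw [← hdt, h2, map_one]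
  -- Kolchin
  obtain ⟨v, hv0, hv⟩ := Fermat.Agent.S36lib.kolchin_two M₀ H hHmul hH
  -- the space of `H`-fixed vectors
  let U₀ : Submodule k₀ (Fin 2 → k₀) :=
    { carrier := {x | ∀ g ∈ H, M₀ g *ᵥ x = x}
      add_mem' := fun {x y} hx hy g hg => by rw [Matrix.mulVec_add, hx g hg, hy g hg]
      zero_mem' := fun g _ => Matrix.mulVec_zero _
      smul_mem' := fun b x hx g hg => by rw [Matrix.mulVec_smul, hx g hg] }
  have hU₀stab : ∀ σ : G, ∀ x ∈ U₀, M₀ σ *ᵥ x ∈ U₀ := by
    intro σ x hx g hg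
    have h1 : M₀ g * M₀ σ = M₀ σ * M₀ (σ⁻¹ * g * σ) := by
      rw [← map_mul, ← map_mul]
      congr 1
      group
    rw [Matrix.mulVec_mulVec, h1, ← Matrix.mulVec_mulVec, hx _ (hHconj σ g hg)]
  have hU₀top : U₀ = ⊤ := by
    rcases hirr U₀ hU₀stab with h | h
    · exfalso
      have : v ∈ U₀ := hv
      rw [h, Submodule.mem_bot] at this
      exact hv0 this
    · exact h
  have htriv : ∀ g ∈ H, M₀ g = 1 := by
    intro g hg
    apply eq_of_forall_mulVec_eq
    intro x
    have hx : x ∈ U₀ := by rw [hU₀top]; exact Submodule.mem_top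
    rw [hx g hg, Matrix.one_mulVec]
  -- commutativity
  have hcommute : ∀ σ τ : G, M₀ σ * M₀ τ = M₀ τ * M₀ σ := by
    intro σ τ
    have h1 : σ * τ = (σ * τ * σ⁻¹ * τ⁻¹) * (τ * σ) := by group
    rw [← map_mul, h1, map_mul, htriv _ (hHcomm σ τ), one_mul, map_mul]
  -- the `+1`-eigenspace of `c`
  let E : Submodule k₀ (Fin 2 → k₀) :=
    { carrier := {x | M₀ c *ᵥ x = x}
      add_mem' := fun {x y} hx hy => by
        show M₀ c *ᵥ (x + y) = x + y
        rw [Matrix.mulVec_add, hx, hy]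
      zero_mem' := Matrix.mulVec_zero _
      smul_mem' := fun b x hx => by
        show M₀ c *ᵥ (b • x) = b • x
        rw [Matrix.mulVec_smul, hx] }
  have hEstab : ∀ σ : G, ∀ x ∈ E, M₀ σ *ᵥ x ∈ E := by
    intro σ x hx
    show M₀ c *ᵥ (M₀ σ *ᵥ x) = M₀ σ *ᵥ x
    rw [Matrix.mulVec_mulVec, hcommute c σ, ← Matrix.mulVec_mulVec, hx]
  have hne : (1 : k₀) ≠ -1 := by
    intro h
    apply h2
    have : (2 : k₀) = 1 + 1 := by norm_num
    rw [this]
    nth_rewrite 1 [h]
    ring
  rcases hirr E hEstab with h | h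
  · -- `c` acts as `-1`
    have hneg : M₀ c = -1 := by
      apply eq_of_forall_mulVec_eq
      intro x
      have hy : M₀ c *ᵥ x + x ∈ E := by
        show M₀ c *ᵥ (M₀ c *ᵥ x + x) = M₀ c *ᵥ x + x
        rw [Matrix.mulVec_add, Matrix.mulVec_mulVec, ← map_mul, hc, map_one, Matrix.one_mulVec,
          add_comm]
      rw [h, Submodule.mem_bot] at hy
      rw [Matrix.neg_mulVec, Matrix.one_mulVec]
      exact eq_neg_of_add_eq_zero_left hy
    rw [hneg, Matrix.det_neg, Matrix.det_one, Fintype.card_fin] at hdet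
    apply hne
    rw [← hdet]
    norm_num
  · -- `c` acts trivially
    have hone : M₀ c = 1 := by
      apply eq_of_forall_mulVec_eq
      intro x
      have hx : x ∈ E := by rw [h]; exact Submodule.mem_top
      rw [Matrix.one_mulVec]
      exact hx
    rw [hone, Matrix.det_one] at hdet
    exact hne hdet

end MatrixForm

/-! ### residual Galois representations -/

section Residual

/-- `G_ℚ` -/
local notation "GQ" => (AlgebraicClosure ℚ ≃ₐ[ℚ] AlgebraicClosure ℚ)

variable {k₀ k : Type} [Field k₀] [Field k]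

/-- the matrices of a residual representation in a basis. -/
def resMat (ρ : ResidualGaloisRep k) (b : Module.Basis (Fin 2) k ρ.V) :
    GQ →* Matrix (Fin 2) (Fin 2) k :=
  ((LinearMap.toMatrixAlgEquiv b : Module.End k ρ.V ≃ₐ[k] Matrix (Fin 2) (Fin 2) k) :
    Module.End k ρ.V →* Matrix (Fin 2) (Fin 2) k).comp ρ.ρ

theorem resMat_apply (ρ : ResidualGaloisRep k) (b : Module.Basis (Fin 2) k ρ.V) (σ : GQ) :
    resMat ρ b σ = LinearMap.toMatrix b b (ρ.ρ σ) := rfl

/-- irreducibility in matrix form. -/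
theorem irr_resMat (ρ : ResidualGaloisRep k) (b : Module.Basis (Fin 2) k ρ.V)
    (hirr : ρ.IsIrreducible) (U : Submodule k (Fin 2 → k))
    (hU : ∀ σ : GQ, ∀ x ∈ U, resMat ρ b σ *ᵥ x ∈ U) : U = ⊥ ∨ U = ⊤ := by
  classical
  let e : ρ.V ≃ₗ[k] (Fin 2 → k) := b.equivFun
  let W : Submodule k ρ.V := U.comap e.toLinearMap
  have hmemW : ∀ x : ρ.V, x ∈ W ↔ e x ∈ U := fun _ => Iff.rfl
  have hstab : ∀ σ : GQ, ∀ x ∈ W, ρ.ρ σ x ∈ W := by
    intro σ x hx
    have h1 : e (ρ.ρ σ x) = resMat ρ b σ *ᵥ (e x) := by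
      rw [resMat_apply]
      exact (LinearMap.toMatrix_mulVec_repr b b _ x).symm
    refine (hmemW _).mpr ?_
    rw [h1]
    exact hU σ _ ((hmemW x).mp hx)
  rcases hirr W hstab with h | h
  · left
    refine (Submodule.eq_bot_iff _).mpr fun u hu => ?_
    have h1 : e.symm u ∈ W := (hmemW _).mpr (by rw [LinearEquiv.apply_symm_apply]; exact hu)
    have h2 : e.symm u = 0 := (Submodule.mem_bot k).mp (h.le h1)
    rw [← e.apply_symm_apply u, h2, map_zero]
  · right
    refine (Submodule.eq_top_iff').mpr fun u => ?_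
    have h1 : e.symm u ∈ W := h.ge Submodule.mem_top
    have h2 := (hmemW _).mp h1
    rwa [LinearEquiv.apply_symm_apply] at h2

/-- **(C2).**  Absolute irreducibility of `ρ` from: `ρ₀` irreducible over `k₀` (`2 ≠ 0` in `k₀`)
with an element `c`, `c * c = 1`, `det ρ₀(c) = -1`, and
`charpoly ρ(σ) = (charpoly ρ₀(σ)).map ι` for all `σ`. -/
theorem isAbsolutelyIrreducible_of_charpoly_eq (ι : k₀ →+* k) (h2 : (2 : k₀) ≠ 0)
    (ρ₀ : ResidualGaloisRep k₀) (hirr : ρ₀.IsIrreducible)
    (c : GQ) (hc : c * c = 1) (hdet : LinearMap.det (ρ₀.ρ c) = -1)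
    (ρ : ResidualGaloisRep k)
    (hcp : ∀ σ : GQ, LinearMap.charpoly (ρ.ρ σ) = (LinearMap.charpoly (ρ₀.ρ σ)).map ι) :
    ρ.IsAbsolutelyIrreducible := by
  classical
  let b₀ : Module.Basis (Fin 2) k₀ ρ₀.V := Module.finBasisOfFinrankEq k₀ ρ₀.V ρ₀.finrank_eq
  let b : Module.Basis (Fin 2) k ρ.V := Module.finBasisOfFinrankEq k ρ.V ρ.finrank_eq
  set K := AlgebraicClosure k
  -- trace and determinant
  have hcp' : ∀ σ : GQ, LinearMap.charpoly (ρ.ρ σ) =
      X ^ 2 - C (ι (LinearMap.trace k₀ ρ₀.V (ρ₀.ρ σ))) * X + C (ι (LinearMap.det (ρ₀.ρ σ))) := by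
    intro σ
    rw [hcp σ, Fermat.Agent.S34lib.charpoly_eq_of_finrank_two ρ₀.finrank_eq (ρ₀.ρ σ)]
    simp only [Polynomial.map_add, Polynomial.map_sub, Polynomial.map_mul, Polynomial.map_pow,
      Polynomial.map_X, Polynomial.map_C]
  have htr : ∀ σ : GQ, (resMat ρ b σ).trace = ι (resMat ρ₀ b₀ σ).trace := by
    intro σ
    rw [resMat_apply, resMat_apply, ← LinearMap.trace_eq_matrix_trace k b,
      ← LinearMap.trace_eq_matrix_trace k₀ b₀]
    exact Fermat.Agent.S31lib.TC.trace_eq_of_charpoly ρ.finrank_eq (ρ.ρ σ) (hcp' σ)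
  have hdt : ∀ σ : GQ, (resMat ρ b σ).det = ι (resMat ρ₀ b₀ σ).det := by
    intro σ
    rw [resMat_apply, resMat_apply, LinearMap.det_toMatrix, LinearMap.det_toMatrix]
    exact Fermat.Agent.S34lib.det_eq_of_charpoly ρ.finrank_eq (ρ.ρ σ) (hcp' σ)
  have hdet' : (resMat ρ₀ b₀ c).det = -1 := by
    rw [resMat_apply, LinearMap.det_toMatrix, hdet]
  -- the matrix statement
  have hmain := fun U hU => irreducible_of_trace_det_eq (K := K) ι h2 (resMat ρ₀ b₀)
    (irr_resMat ρ₀ b₀ hirr) c hc hdet' (resMat ρ b) htr hdt U hU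
  -- back to the base change
  let b₂ : Module.Basis (Fin 2) K (K ⊗[k] ρ.V) := Algebra.TensorProduct.basis K b
  let e : (K ⊗[k] ρ.V) ≃ₗ[K] (Fin 2 → K) := b₂.equivFun
  have hmat : ∀ σ, LinearMap.toMatrix b₂ b₂ ((ρ.ρ σ).baseChange K) =
      (resMat ρ b σ).map (algebraMap k K) := by
    intro σ
    rw [LinearMap.toMatrix_baseChange]
    rfl
  intro W hW
  let U : Submodule K (Fin 2 → K) := W.map e.toLinearMap
  have hmemU : ∀ x : K ⊗[k] ρ.V, e x ∈ U ↔ x ∈ W := by
    intro x
    constructor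
    · rintro ⟨y, hy, hyx⟩
      have : y = x := e.injective hyx
      exact this ▸ hy
    · intro hx
      exact ⟨x, hx, rfl⟩
  have hUstab : ∀ σ : GQ, ∀ x ∈ U, ((resMat ρ b σ).map (algebraMap k K)) *ᵥ x ∈ U := by
    rintro σ _ ⟨y, hy, rfl⟩
    have h1 : e (((ρ.ρ σ).baseChange K) y) = ((resMat ρ b σ).map (algebraMap k K)) *ᵥ (e y) := by
      rw [← hmat σ]
      exact (LinearMap.toMatrix_mulVec_repr b₂ b₂ _ y).symm
    show ((resMat ρ b σ).map (algebraMap k K)) *ᵥ (e y) ∈ U
    rw [← h1]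
    exact (hmemU _).mpr (hW σ y hy)
  rcases hmain U hUstab with h | h
  · left
    refine (Submodule.eq_bot_iff _).mpr fun w hw => ?_
    have h1 : e w ∈ U := (hmemU w).mpr hw
    rw [h, Submodule.mem_bot] at h1
    exact e.map_eq_zero_iff.mp h1
  · right
    refine (Submodule.eq_top_iff').mpr fun w => ?_
    have h1 : e w ∈ U := by rw [h]; exact Submodule.mem_top
    exact (hmemU w).mp h1

end Residual

end Fermat.Agent.S58lib.Cmp
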