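/-
S58lib / Cmp / Conj (helper3), brick (C3): the cyclotomic character at the prelude's
`complexConjugation` is `-1`:  `chiZp p complexConjugation = -1` and
`chiAdic p I hpI complexConjugation = -1`.  With `S35lib.Gal.det_eq_chiAdic` this gives
`det ρ(complexConjugation) = -1` for every adic representation whose Frobenius elements have
determinant `ℓ` off a finite set.
-/
import Fermat.Agent.S29lib.S30.CycloAdic
import Fermat.Agent.S35lib.Gal.DetCyclo
import Fermat.Prelude.Def_GaloisRep_ComplexConjugation

set_option autoImplicit false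
set_option linter.unusedSectionVars false
set_option linter.style.haveILetI false

noncomputable section

namespace Fermat.Agent.S58lib.Cmp

open Fermat.Agent.S29lib.S30 Polynomial IsLocalRing

/-- `ℚ̄` -/
local notation "Qb" => AlgebraicClosure ℚ
/-- `G_ℚ` -/
local notation "GQ" => (AlgebraicClosure ℚ ≃ₐ[ℚ] AlgebraicClosure ℚ)

/-- complex conjugation inverts the roots of unity of `ℚ̄`. -/
theorem complexConjugation_of_pow_eq_one {t : Qb} {m : ℕ} (hm : m ≠ 0) (ht : t ^ m = 1) :
    complexConjugation t = t⁻¹ := by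
  apply complexEmbedding.toRingHom.injective
  show complexEmbedding (complexConjugation t) = complexEmbedding t⁻¹
  rw [complexEmbedding_complexConjugation, map_inv₀]
  have hz : (complexEmbedding t) ^ m = 1 := by rw [← map_pow, ht, map_one]
  have hnorm : ‖complexEmbedding t‖ = 1 := Complex.norm_eq_one_of_pow_eq_one hz hm
  exact (Complex.inv_eq_conj hnorm).symm

variable (p : ℕ) [hpf : Fact p.Prime]

/-- **(C3)** `χ_p(complex conjugation) = -1`. -/
theorem chiZp_complexConjugation : chiZp p complexConjugation = -1 := by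
  have hp : p.Prime := hpf.out
  apply Units.ext
  apply PadicInt.ext_of_toZModPow.mp
  intro n
  rw [Units.val_neg, Units.val_one, map_neg, map_one]
  rcases Nat.eq_zero_or_pos n with rfl | hn
  · haveI : Subsingleton (ZMod (p ^ 0)) := by
      rw [pow_zero]; infer_instance
    exact Subsingleton.elim _ _
  haveI : NeZero (p ^ n) := ⟨pow_ne_zero _ hp.ne_zero⟩
  obtain ⟨ζ, hζ⟩ := HasEnoughRootsOfUnity.exists_primitiveRoot Qb (p ^ n)
  set c := PadicInt.toZModPow n ((chiZp p complexConjugation : ℤ_[p]ˣ) : ℤ_[p]) with hc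
  have h1 : ζ ^ c.val = ζ⁻¹ := by
    rw [← chiZp_spec p complexConjugation hζ.pow_eq_one]
    exact complexConjugation_of_pow_eq_one (pow_ne_zero _ hp.ne_zero) hζ.pow_eq_one
  have hζ0 : ζ ≠ 0 := hζ.ne_zero (pow_ne_zero _ hp.ne_zero)
  have h2 : ζ ^ (c.val + 1) = 1 := by
    rw [pow_succ, h1, inv_mul_cancel₀ hζ0]
  have h3 : p ^ n ∣ c.val + 1 := hζ.dvd_of_pow_eq_one _ h2
  have h4 : ((c.val + 1 : ℕ) : ZMod (p ^ n)) = 0 := (ZMod.natCast_eq_zero_iff _ _).mpr h3
  rw [Nat.cast_add, Nat.cast_one, ZMod.natCast_zmod_val] at h4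
  exact eq_neg_of_add_eq_zero_left h4

variable {O : Type*} [CommRing O] (I : Ideal O) [IsAdicComplete I O] (hpI : (p : O) ∈ I)

/-- **(C3)** with values in a complete ring. -/
theorem chiAdic_complexConjugation : chiAdic p I hpI complexConjugation = -1 := by
  apply Units.ext
  rw [coe_chiAdic, chiZp_complexConjugation, Units.val_neg, Units.val_one, Units.val_neg,
    Units.val_one, map_neg, map_one]

/-- **`det ρ(complex conjugation) = -1`** for an adic representation over a complete local ring of
residue characteristic `p` whose Frobenius elements off a finite set have characteristic polynomial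
`X² - t X + ℓ`. -/
theorem det_complexConjugation {O : Type} [CommRing O] [IsLocalRing O]
    [IsAdicComplete (maximalIdeal O) O] (hpO : (p : O) ∈ maximalIdeal O)
    (ρ : GaloisRepAdic O) (S₀ : Finset ℕ)
    (hchar : ∀ ℓ : ℕ, ℓ.Prime → ℓ ∉ S₀ → ∀ A : ValuationSubring Qb, A.LiesOverPrime ℓ →
      ∀ φ : GQ, A.IsFrobeniusAt φ ℓ →
        ∃ t : O, LinearMap.charpoly (ρ.ρ φ) = X ^ 2 - C t * X + C (ℓ : O)) :
    LinearMap.det (ρ.ρ complexConjugation) = -1 := by
  rw [Fermat.Agent.S35lib.Gal.det_eq_chiAdic p hpO ρ S₀ hchar complexConjugation,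
    chiAdic_complexConjugation, Units.val_neg, Units.val_one]

end Fermat.Agent.S58lib.Cmp
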