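/-
S58lib / Cmp / Hres (helper3), brick (C4): **the hypothesis `hres` of `S36lib.s36_of_inertiaKill`
from a mod-`p` comparison.**

`ρ₀` is a 2-dimensional representation of `G_ℚ` over `𝔽_p` (`p` odd), irreducible over `𝔽_p`, whose
Frobenius elements at the primes `ℓ ∉ S₀` have characteristic polynomial `X² - a_ℓ X + ℓ`
(`a_ℓ ∈ ℤ`).  Then every adic representation `ρ` over a local ring `O` of residue characteristic
`p` whose Frobenius elements at the primes `ℓ ∉ S₀` have characteristic polynomial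
`X² - a_ℓ X + ℓ` is residually ABSOLUTELY irreducible (`absIrr_of_modp`).

Ingredients: (C1) the comparison lemma over the fields `𝔽_p → k = O/𝔪` (discrete local rings),
(C3) `det ρ₀(complex conjugation) = -1`, (C2) the transfer of absolute irreducibility.

`hres_of_modp` is the statement in the exact shape of the hypothesis `hres` of
`S36lib.s36_of_inertiaKill` (which asks only for absolute irreducibility, not for oddness).
-/
import Fermat.Agent.S58lib.Cmp.Charpoly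
import Fermat.Agent.S58lib.Cmp.AbsIrr
import Fermat.Agent.S58lib.Cmp.Conj
import Fermat.Prelude.Def_CuspForm_HeckeGaloisRepDatum

set_option autoImplicit false
set_option linter.unusedSectionVars false
set_option linter.style.haveILetI false
set_option linter.overlappingInstances false

noncomputable section

namespace Fermat.Agent.S58lib.Cmp

open Polynomial IsLocalRing

/-- `ℚ̄` -/
local notation "Qb" => AlgebraicClosure ℚ
/-- `G_ℚ` -/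
local notation "GQ" => (AlgebraicClosure ℚ ≃ₐ[ℚ] AlgebraicClosure ℚ)

/-- a field is Hausdorff for its maximal ideal `⊥`. -/
theorem isHausdorff_maximalIdeal_field (k : Type*) [Field k] :
    IsHausdorff (maximalIdeal k) k := by
  rw [IsLocalRing.maximalIdeal_eq_bot]
  infer_instance

/-- a field is complete for its maximal ideal `⊥`. -/
theorem isAdicComplete_maximalIdeal_field (k : Type*) [Field k] :
    IsAdicComplete (maximalIdeal k) k := by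
  rw [IsLocalRing.maximalIdeal_eq_bot]
  infer_instance

variable (p : ℕ) [hpf : Fact p.Prime]

/-- **the mod-`p` representation is odd**: `det ρ₀(complex conjugation) = -1`. -/
theorem det_complexConjugation_modp (ρ₀ : ResidualGaloisRep (ZMod p)) (a : ℕ → ℤ) (S₀ : Finset ℕ)
    (h₀ : ∀ ℓ : ℕ, ℓ.Prime → ℓ ∉ S₀ → ∀ A : ValuationSubring Qb, A.LiesOverPrime ℓ →
      ∀ φ : GQ, A.IsFrobeniusAt φ ℓ →
        LinearMap.charpoly (ρ₀.ρ φ) =
          X ^ 2 - C ((a ℓ : ℤ) : ZMod p) * X + C ((ℓ : ℕ) : ZMod p)) :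
    LinearMap.det (ρ₀.ρ complexConjugation) = -1 := by
  haveI := isAdicComplete_maximalIdeal_field (ZMod p)
  have hp0 : ((p : ℕ) : ZMod p) ∈ maximalIdeal (ZMod p) := by
    rw [ZMod.natCast_self]
    exact Ideal.zero_mem _
  exact det_complexConjugation p hp0 (GaloisRepAdic.ofResidualGaloisRep ρ₀) S₀
    (fun ℓ hℓ hℓS A hA φ hφ => ⟨_, h₀ ℓ hℓ hℓS A hA φ hφ⟩)

/-- **(C4), abstract form.** -/
theorem absIrr_of_modp (hp2 : p ≠ 2) (ρ₀ : ResidualGaloisRep (ZMod p)) (hirr : ρ₀.IsIrreducible)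
    (a : ℕ → ℤ) (S₀ : Finset ℕ)
    (h₀ : ∀ ℓ : ℕ, ℓ.Prime → ℓ ∉ S₀ → ∀ A : ValuationSubring Qb, A.LiesOverPrime ℓ →
      ∀ φ : GQ, A.IsFrobeniusAt φ ℓ →
        LinearMap.charpoly (ρ₀.ρ φ) =
          X ^ 2 - C ((a ℓ : ℤ) : ZMod p) * X + C ((ℓ : ℕ) : ZMod p))
    {O : Type} [CommRing O] [IsLocalRing O] (hpO : (p : O) ∈ maximalIdeal O)
    (ρ : GaloisRepAdic O)
    (h : ∀ ℓ : ℕ, ℓ.Prime → ℓ ∉ S₀ → ∀ A : ValuationSubring Qb, A.LiesOverPrime ℓ →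
      ∀ φ : GQ, A.IsFrobeniusAt φ ℓ →
        LinearMap.charpoly (ρ.ρ φ) = X ^ 2 - C ((a ℓ : ℤ) : O) * X + C ((ℓ : ℕ) : O)) :
    ρ.residual.IsAbsolutelyIrreducible := by
  classical
  have hp : p.Prime := hpf.out
  set k := ResidueField O with hk
  -- characteristic `p`
  have hpk : ((p : ℕ) : k) = 0 := by
    have h1 : ((p : ℕ) : k) = residue O (p : O) := (map_natCast (residue O) p).symm
    rw [h1]
    exact (residue_eq_zero_iff _).mpr hpO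
  haveI : CharP k p := (CharP.charP_iff_prime_eq_zero hp).mpr hpk
  let ι : ZMod p →+* k := ZMod.castHom (dvd_refl p) k
  -- `2 ≠ 0` in `𝔽_p`
  have h2 : (2 : ZMod p) ≠ 0 := by
    intro h20
    have h3 : ((2 : ℕ) : ZMod p) = 0 := by exact_mod_cast h20
    rw [ZMod.natCast_eq_zero_iff] at h3
    have := (Nat.prime_dvd_prime_iff_eq hp Nat.prime_two).mp h3
    exact hp2 this
  -- the residual Frobenius characteristic polynomials
  have hres : ∀ ℓ : ℕ, ℓ.Prime → ℓ ∉ S₀ → ∀ A : ValuationSubring Qb, A.LiesOverPrime ℓ →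
      ∀ φ : GQ, A.IsFrobeniusAt φ ℓ →
        LinearMap.charpoly (ρ.residual.ρ φ) =
          X ^ 2 - C ((a ℓ : ℤ) : k) * X + C ((ℓ : ℕ) : k) := by
    intro ℓ hℓ hℓS A hA φ hφ
    show LinearMap.charpoly ((ρ.ρ φ).baseChange k) = _
    rw [LinearMap.charpoly_baseChange, h ℓ hℓ hℓS A hA φ hφ, map_quad_int]
  -- the comparison over the fields
  haveI := isHausdorff_maximalIdeal_field k
  have hcmp := charpoly_map_eq_of_frobenius ι
    (fun x hx => by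
      rw [IsLocalRing.maximalIdeal_eq_bot, Ideal.mem_bot] at hx
      rw [hx, map_zero]
      exact Ideal.zero_mem _)
    (GaloisRepAdic.ofResidualGaloisRep ρ₀) (GaloisRepAdic.ofResidualGaloisRep ρ.residual) S₀
    (fun ℓ hℓ hℓS A hA φ hφ => by
      show LinearMap.charpoly (ρ.residual.ρ φ) = (LinearMap.charpoly (ρ₀.ρ φ)).map ι
      rw [hres ℓ hℓ hℓS A hA φ hφ, h₀ ℓ hℓ hℓS A hA φ hφ, map_quad_int])
  exact isAbsolutelyIrreducible_of_charpoly_eq ι h2 ρ₀ hirr complexConjugation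
    complexConjugation_mul_self (det_complexConjugation_modp p ρ₀ a S₀ h₀) ρ.residual
    (fun σ => hcmp σ)

/-- **(C4)**: the hypothesis `hres` of `S36lib.s36_of_inertiaKill`, verbatim. -/
theorem hres_of_modp (hp2 : p ≠ 2) (ρ₀ : ResidualGaloisRep (ZMod p)) (hirr : ρ₀.IsIrreducible)
    (a : ℕ → ℤ) (S₀ : Finset ℕ)
    (h₀ : ∀ ℓ : ℕ, ℓ.Prime → ℓ ∉ S₀ → ∀ A : ValuationSubring Qb, A.LiesOverPrime ℓ →
      ∀ φ : GQ, A.IsFrobeniusAt φ ℓ →
        LinearMap.charpoly (ρ₀.ρ φ) =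
          X ^ 2 - C ((a ℓ : ℤ) : ZMod p) * X + C ((ℓ : ℕ) : ZMod p))
    {N : ℕ} [NeZero N] {g : CuspForm (CongruenceSubgroup.Gamma0 N) 2}
    (hga : ∀ ℓ : ℕ, ℓ.Prime → ℓ ∉ S₀ → ModularFormClass.qCoeff g ℓ = ((a ℓ : ℤ) : ℂ))
    (S : Finset ℕ)
    (𝒪' : Type) [CommRing 𝒪'] [IsDomain 𝒪'] [IsDiscreteValuationRing 𝒪']
    [IsAdicComplete (IsLocalRing.maximalIdeal 𝒪') 𝒪'] [Finite (IsLocalRing.ResidueField 𝒪')]
    [CharZero 𝒪'] (hp𝒪' : (p : 𝒪') ∈ IsLocalRing.maximalIdeal 𝒪')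
    (chig : CuspForm.heckeAlgebra N 2 (↑S : Set ℕ) →+* ℂ)
    (hchig : ∀ (ℓ : ℕ) (hℓ : ℓ.Prime) (hℓN : ¬ ℓ ∣ N) (hℓS : ℓ ∉ (↑S : Set ℕ)),
      chig (CuspForm.heckeAlgebra.T hℓ hℓN hℓS) = ModularFormClass.qCoeff g ℓ)
    (iota : chig.range →+* 𝒪') :
    ∀ (𝒪'' : Type) [CommRing 𝒪''] [IsDomain 𝒪''] [IsDiscreteValuationRing 𝒪'']
      [IsAdicComplete (IsLocalRing.maximalIdeal 𝒪'') 𝒪''] [Finite (IsLocalRing.ResidueField 𝒪'')]
      [CharZero 𝒪''] [Algebra 𝒪' 𝒪''] [Module.Finite 𝒪' 𝒪''] [IsLocalHom (algebraMap 𝒪' 𝒪'')],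
      Function.Injective (algebraMap 𝒪' 𝒪'') → ∀ (ρ : GaloisRepAdic 𝒪''),
      (∀ (ℓ : ℕ) (hℓ : ℓ.Prime) (_ : ℓ ≠ p) (hℓN : ¬ ℓ ∣ N) (hℓS : ℓ ∉ (↑S : Set ℕ)),
        ∀ A : ValuationSubring (AlgebraicClosure ℚ), A.LiesOverPrime ℓ →
          ∀ σ : AlgebraicClosure ℚ ≃ₐ[ℚ] AlgebraicClosure ℚ, A.IsFrobeniusAt σ ℓ →
            LinearMap.charpoly (ρ.ρ σ) =
              X ^ 2 - C (algebraMap 𝒪' 𝒪'' ((iota.comp chig.rangeRestrict)
                (CuspForm.heckeAlgebra.T hℓ hℓN hℓS))) * X + C ((ℓ : 𝒪'')))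
      → ρ.residual.IsAbsolutelyIrreducible := by
  intro 𝒪'' _ _ _ _ _ _ _ _ _ _ ρ hρ
  classical
  have hN0 : N ≠ 0 := NeZero.ne N
  have hpO'' : (p : 𝒪'') ∈ IsLocalRing.maximalIdeal 𝒪'' := by
    have h1 : (p : 𝒪'') = algebraMap 𝒪' 𝒪'' (p : 𝒪') := (map_natCast _ p).symm
    rw [h1]
    exact map_nonunit (algebraMap 𝒪' 𝒪'') _ hp𝒪'
  -- the enlarged exceptional set
  let S₁ : Finset ℕ := S₀ ∪ S ∪ {p} ∪ N.primeFactors
  have hS₀ : ∀ ℓ, ℓ ∉ S₁ → ℓ ∉ S₀ := fun ℓ h hm => h (by simp [S₁, hm])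
  have hS : ∀ ℓ, ℓ ∉ S₁ → ℓ ∉ (↑S : Set ℕ) := fun ℓ h hm =>
    h (by simp only [S₁, Finset.mem_union]; exact Or.inl (Or.inl (Or.inr (Finset.mem_coe.mp hm))))
  have hp' : ∀ ℓ, ℓ ∉ S₁ → ℓ ≠ p := fun ℓ h hm => h (by simp [S₁, hm])
  have hNd : ∀ ℓ, ℓ.Prime → ℓ ∉ S₁ → ¬ ℓ ∣ N := fun ℓ hℓ h hd =>
    h (by
      simp only [S₁, Finset.mem_union]
      exact Or.inr (Nat.mem_primeFactors.mpr ⟨hℓ, hd, hN0⟩))
  refine absIrr_of_modp p hp2 ρ₀ hirr a S₁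
    (fun ℓ hℓ hℓS A hA φ hφ => h₀ ℓ hℓ (hS₀ ℓ hℓS) A hA φ hφ) hpO'' ρ ?_
  intro ℓ hℓ hℓS A hA φ hφ
  rw [hρ ℓ hℓ (hp' ℓ hℓS) (hNd ℓ hℓ hℓS) (hS ℓ hℓS) A hA φ hφ]
  have h1 : chig.rangeRestrict (CuspForm.heckeAlgebra.T hℓ (hNd ℓ hℓ hℓS) (hS ℓ hℓS)) =
      ((a ℓ : ℤ) : chig.range) := by
    apply Subtype.ext
    rw [RingHom.coe_rangeRestrict, hchig, hga ℓ hℓ (hS₀ ℓ hℓS)]
    simp
  rw [RingHom.comp_apply, h1, map_intCast, map_intCast]

end Fermat.Agent.S58lib.Cmp
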