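/-
S58lib / Cmp / Charpoly (helper3), brick (C1): **the comparison lemma**.

Two adic Galois representations `ρ₁` over `A₁` and `ρ₂` over `A₂` (rank 2, adically continuous),
a ring homomorphism `ι : A₁ → A₂` mapping the maximal ideal into the maximal ideal, `A₂`
Hausdorff.  If the characteristic polynomials of the Frobenius elements at all primes outside a
finite set `S₀` correspond under `ι`, then the characteristic polynomials of ALL elements of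
`G_ℚ` correspond under `ι`:

  `charpoly (ρ₂ σ) = (charpoly (ρ₁ σ)).map ι`   for every `σ ∈ G_ℚ`.

Proof: weak Chebotarev (`S31lib.WC.brickWC`): modulo the `n`-th power of the maximal ideals `σ`
acts in both representations like a power `φ^j` of a Frobenius element at a prime `ℓ ∉ S₀`; trace
and determinant of `ρ_i (φ^j)` are the universal polynomials `powTr t d j`, `d^j` in the trace and
determinant of `ρ_i φ` (`S31lib.TC.trace_sub_powTr_mem`, `S34lib.det_sub_pow_mem`).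

Corollaries: the same-ring version, transfer of `IsUnipotentOnInertiaAt`, the integer-coefficient
form.  No isomorphism of representations, no irreducibility, no Brauer–Nesbitt is involved.
-/
import Fermat.Agent.S34lib.TC.Unip
import Fermat.Agent.S31lib.WC.Export
import Fermat.Prelude.Def_GaloisRep_LocalConditions

set_option autoImplicit false
set_option linter.unusedSectionVars false
set_option linter.style.haveILetI false

noncomputable section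

namespace Fermat.Agent.S58lib.Cmp

open Polynomial IsLocalRing Fermat.Agent.S31lib.TC

/-- `ℚ̄` -/
local notation "Qb" => AlgebraicClosure ℚ
/-- `G_ℚ` -/
local notation "GQ" => (AlgebraicClosure ℚ ≃ₐ[ℚ] AlgebraicClosure ℚ)

variable {A₁ A₂ : Type} [CommRing A₁] [IsLocalRing A₁] [CommRing A₂] [IsLocalRing A₂]

/-- `Polynomial.map` of `X² - aX + n` with integer coefficients. -/
theorem map_quad_int {R S : Type*} [CommRing R] [CommRing S] (f : R →+* S) (a : ℤ) (n : ℕ) :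
    ((X : R[X]) ^ 2 - C (a : R) * X + C (n : R)).map f = X ^ 2 - C (a : S) * X + C (n : S) := by
  rw [Polynomial.map_add, Polynomial.map_sub, Polynomial.map_mul, Polynomial.map_pow,
    Polynomial.map_X, Polynomial.map_C, Polynomial.map_C, map_intCast, map_natCast]

/-- a ring homomorphism mapping `𝔪₁` into `𝔪₂` maps `𝔪₁ ^ n` into `𝔪₂ ^ n`. -/
theorem map_mem_pow_of_mem_pow (ι : A₁ →+* A₂)
    (hι : ∀ a ∈ maximalIdeal A₁, ι a ∈ maximalIdeal A₂) (n : ℕ) {a : A₁}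
    (ha : a ∈ maximalIdeal A₁ ^ n) : ι a ∈ maximalIdeal A₂ ^ n := by
  have hle : (maximalIdeal A₁).map ι ≤ maximalIdeal A₂ :=
    Ideal.map_le_iff_le_comap.mpr fun a ha => Ideal.mem_comap.mpr (hι a ha)
  have h1 : ι a ∈ (maximalIdeal A₁ ^ n).map ι := Ideal.mem_map_of_mem ι ha
  rw [Ideal.map_pow] at h1
  exact Ideal.pow_right_mono hle n h1

/-- **(C1), trace and determinant form.** -/
theorem trace_det_map_eq_of_frobenius [IsHausdorff (maximalIdeal A₂) A₂] (ι : A₁ →+* A₂)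
    (hι : ∀ a ∈ maximalIdeal A₁, ι a ∈ maximalIdeal A₂)
    (ρ₁ : GaloisRepAdic A₁) (ρ₂ : GaloisRepAdic A₂) (S₀ : Finset ℕ)
    (h : ∀ ℓ : ℕ, ℓ.Prime → ℓ ∉ S₀ → ∀ A : ValuationSubring Qb, A.LiesOverPrime ℓ →
      ∀ φ : GQ, A.IsFrobeniusAt φ ℓ →
        LinearMap.charpoly (ρ₂.ρ φ) = (LinearMap.charpoly (ρ₁.ρ φ)).map ι) (σ : GQ) :
    LinearMap.trace A₂ ρ₂.V (ρ₂.ρ σ) = ι (LinearMap.trace A₁ ρ₁.V (ρ₁.ρ σ)) ∧
      LinearMap.det (ρ₂.ρ σ) = ι (LinearMap.det (ρ₁.ρ σ)) := by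
  classical
  have key : ∀ n : ℕ,
      LinearMap.trace A₂ ρ₂.V (ρ₂.ρ σ) - ι (LinearMap.trace A₁ ρ₁.V (ρ₁.ρ σ)) ∈
        maximalIdeal A₂ ^ n ∧
      LinearMap.det (ρ₂.ρ σ) - ι (LinearMap.det (ρ₁.ρ σ)) ∈ maximalIdeal A₂ ^ n := by
    intro n
    obtain ⟨L₁, hL₁fd, hL₁⟩ := ρ₁.isAdicContinuous n
    obtain ⟨L₂, hL₂fd, hL₂⟩ := ρ₂.isAdicContinuous n
    haveI := hL₁fd
    haveI := hL₂fd
    let L : IntermediateField ℚ Qb := L₁ ⊔ L₂
    haveI : FiniteDimensional ℚ L := IntermediateField.finiteDimensional_sup L₁ L₂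
    obtain ⟨ℓ, A, φ, j, hℓ, hℓS, hA, hφ, hagree⟩ :=
      Fermat.Agent.S31lib.WC.brickWC S₀ L inferInstance σ
    -- the Frobenius data
    set t := LinearMap.trace A₁ ρ₁.V (ρ₁.ρ φ) with ht
    set d := LinearMap.det (ρ₁.ρ φ) with hd
    have hc₁ : LinearMap.charpoly (ρ₁.ρ φ) = X ^ 2 - C t * X + C d :=
      Fermat.Agent.S34lib.charpoly_eq_of_finrank_two ρ₁.finrank_eq (ρ₁.ρ φ)
    have hc₂ : LinearMap.charpoly (ρ₂.ρ φ) = X ^ 2 - C (ι t) * X + C (ι d) := by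
      rw [h ℓ hℓ hℓS A hA φ hφ, hc₁]
      simp only [Polynomial.map_add, Polynomial.map_sub, Polynomial.map_mul, Polynomial.map_pow,
        Polynomial.map_X, Polynomial.map_C]
    have hL₁' : ∀ g : GQ, (∀ x ∈ L, g x = x) → ∀ v : ρ₁.V,
        ρ₁.ρ g v - v ∈ (maximalIdeal A₁ ^ n) • (⊤ : Submodule A₁ ρ₁.V) :=
      fun g hg v => hL₁ g (fun x hx => hg x (le_sup_left (a := L₁) hx)) v
    have hL₂' : ∀ g : GQ, (∀ x ∈ L, g x = x) → ∀ v : ρ₂.V,
        ρ₂.ρ g v - v ∈ (maximalIdeal A₂ ^ n) • (⊤ : Submodule A₂ ρ₂.V) :=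
      fun g hg v => hL₂ g (fun x hx => hg x (le_sup_right (a := L₁) hx)) v
    -- traces
    have ht₁ := trace_sub_powTr_mem ρ₁ (maximalIdeal A₁ ^ n) L hL₁' hagree hc₁
    have ht₂ := trace_sub_powTr_mem ρ₂ (maximalIdeal A₂ ^ n) L hL₂' hagree hc₂
    have ht₁' := map_mem_pow_of_mem_pow ι hι n ht₁
    rw [map_sub, map_powTr] at ht₁'
    -- determinants
    have hd₁ := Fermat.Agent.S34lib.det_sub_pow_mem ρ₁ (maximalIdeal A₁ ^ n) L hL₁' hagree hc₁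
    have hd₂ := Fermat.Agent.S34lib.det_sub_pow_mem ρ₂ (maximalIdeal A₂ ^ n) L hL₂' hagree hc₂
    have hd₁' := map_mem_pow_of_mem_pow ι hι n hd₁
    rw [map_sub, map_pow] at hd₁'
    constructor
    · have := (maximalIdeal A₂ ^ n).sub_mem ht₂ ht₁'
      rwa [sub_sub_sub_cancel_right] at this
    · have := (maximalIdeal A₂ ^ n).sub_mem hd₂ hd₁'
      rwa [sub_sub_sub_cancel_right] at this
  constructor
  · rw [← sub_eq_zero]
    exact eq_zero_of_forall_mem_pow' (maximalIdeal A₂) fun n => (key n).1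
  · rw [← sub_eq_zero]
    exact eq_zero_of_forall_mem_pow' (maximalIdeal A₂) fun n => (key n).2

/-- **(C1), the comparison lemma.** -/
theorem charpoly_map_eq_of_frobenius [IsHausdorff (maximalIdeal A₂) A₂] (ι : A₁ →+* A₂)
    (hι : ∀ a ∈ maximalIdeal A₁, ι a ∈ maximalIdeal A₂)
    (ρ₁ : GaloisRepAdic A₁) (ρ₂ : GaloisRepAdic A₂) (S₀ : Finset ℕ)
    (h : ∀ ℓ : ℕ, ℓ.Prime → ℓ ∉ S₀ → ∀ A : ValuationSubring Qb, A.LiesOverPrime ℓ →
      ∀ φ : GQ, A.IsFrobeniusAt φ ℓ →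
        LinearMap.charpoly (ρ₂.ρ φ) = (LinearMap.charpoly (ρ₁.ρ φ)).map ι) (σ : GQ) :
    LinearMap.charpoly (ρ₂.ρ σ) = (LinearMap.charpoly (ρ₁.ρ σ)).map ι := by
  obtain ⟨h1, h2⟩ := trace_det_map_eq_of_frobenius ι hι ρ₁ ρ₂ S₀ h σ
  rw [Fermat.Agent.S34lib.charpoly_eq_of_finrank_two ρ₂.finrank_eq (ρ₂.ρ σ),
    Fermat.Agent.S34lib.charpoly_eq_of_finrank_two ρ₁.finrank_eq (ρ₁.ρ σ), h1, h2]
  simp only [Polynomial.map_add, Polynomial.map_sub, Polynomial.map_mul, Polynomial.map_pow,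
    Polynomial.map_X, Polynomial.map_C]

/-- a local homomorphism maps the maximal ideal into the maximal ideal. -/
theorem map_mem_maximalIdeal_of_isLocalHom (ι : A₁ →+* A₂) [IsLocalHom ι] :
    ∀ a ∈ maximalIdeal A₁, ι a ∈ maximalIdeal A₂ :=
  fun a ha => map_nonunit ι a ha

/-- **(C1), same ring.** -/
theorem charpoly_eq_of_frobenius {A : Type} [CommRing A] [IsLocalRing A]
    [IsHausdorff (maximalIdeal A) A] (ρ₁ ρ₂ : GaloisRepAdic A) (S₀ : Finset ℕ)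
    (h : ∀ ℓ : ℕ, ℓ.Prime → ℓ ∉ S₀ → ∀ B : ValuationSubring Qb, B.LiesOverPrime ℓ →
      ∀ φ : GQ, B.IsFrobeniusAt φ ℓ →
        LinearMap.charpoly (ρ₂.ρ φ) = LinearMap.charpoly (ρ₁.ρ φ)) (σ : GQ) :
    LinearMap.charpoly (ρ₂.ρ σ) = LinearMap.charpoly (ρ₁.ρ σ) := by
  have := charpoly_map_eq_of_frobenius (RingHom.id A) (fun a ha => ha) ρ₁ ρ₂ S₀
    (fun ℓ hℓ hℓS B hB φ hφ => by rw [h ℓ hℓ hℓS B hB φ hφ, Polynomial.map_id]) σ
  rwa [Polynomial.map_id] at this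

/-- `(X - 1)²` is stable under `Polynomial.map`. -/
theorem map_X_sub_one_sq (ι : A₁ →+* A₂) :
    (((X : A₁[X]) - 1) ^ 2).map ι = ((X : A₂[X]) - 1) ^ 2 := by
  simp only [Polynomial.map_pow, Polynomial.map_sub, Polynomial.map_X, Polynomial.map_one]

/-- **Transfer of unipotent inertia**: if the Frobenius characteristic polynomials of `ρ₁` and
`ρ₂` correspond off a finite set and `ρ₁` is unipotent on the inertia groups at `q`, then so is
`ρ₂`. -/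
theorem isUnipotentOnInertiaAt_of_frobenius [IsHausdorff (maximalIdeal A₂) A₂] (ι : A₁ →+* A₂)
    (hι : ∀ a ∈ maximalIdeal A₁, ι a ∈ maximalIdeal A₂)
    (ρ₁ : GaloisRepAdic A₁) (ρ₂ : GaloisRepAdic A₂) (S₀ : Finset ℕ)
    (h : ∀ ℓ : ℕ, ℓ.Prime → ℓ ∉ S₀ → ∀ A : ValuationSubring Qb, A.LiesOverPrime ℓ →
      ∀ φ : GQ, A.IsFrobeniusAt φ ℓ →
        LinearMap.charpoly (ρ₂.ρ φ) = (LinearMap.charpoly (ρ₁.ρ φ)).map ι)
    {q : ℕ} (hq : ρ₁.IsUnipotentOnInertiaAt q) : ρ₂.IsUnipotentOnInertiaAt q := by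
  intro P hP σ hσ
  rw [charpoly_map_eq_of_frobenius ι hι ρ₁ ρ₂ S₀ h σ, hq P hP σ hσ, map_X_sub_one_sq]

/-- **Integer-coefficient form**: if `ρ₁ σ` has characteristic polynomial `X² - aX + d` with
integers `a`, `d`, then so has `ρ₂ σ`. -/
theorem charpoly_eq_int_of_frobenius [IsHausdorff (maximalIdeal A₂) A₂] (ι : A₁ →+* A₂)
    (hι : ∀ a ∈ maximalIdeal A₁, ι a ∈ maximalIdeal A₂)
    (ρ₁ : GaloisRepAdic A₁) (ρ₂ : GaloisRepAdic A₂) (S₀ : Finset ℕ)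
    (h : ∀ ℓ : ℕ, ℓ.Prime → ℓ ∉ S₀ → ∀ A : ValuationSubring Qb, A.LiesOverPrime ℓ →
      ∀ φ : GQ, A.IsFrobeniusAt φ ℓ →
        LinearMap.charpoly (ρ₂.ρ φ) = (LinearMap.charpoly (ρ₁.ρ φ)).map ι)
    {σ : GQ} {a d : ℤ}
    (hσ : LinearMap.charpoly (ρ₁.ρ σ) = X ^ 2 - C (a : A₁) * X + C (d : A₁)) :
    LinearMap.charpoly (ρ₂.ρ σ) = X ^ 2 - C (a : A₂) * X + C (d : A₂) := by
  rw [charpoly_map_eq_of_frobenius ι hι ρ₁ ρ₂ S₀ h σ, hσ]
  simp only [Polynomial.map_add, Polynomial.map_sub, Polynomial.map_mul, Polynomial.map_pow,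
    Polynomial.map_X, map_intCast, Polynomial.map_intCast]

/-- **Frobenius data given by integers**: the hypothesis `h` of the comparison lemma when the
Frobenius characteristic polynomials of both representations are `X² - a_ℓ X + ℓ` with integers
`a_ℓ`. -/
theorem frobenius_hyp_of_int (ι : A₁ →+* A₂) (ρ₁ : GaloisRepAdic A₁) (ρ₂ : GaloisRepAdic A₂)
    (S₀ : Finset ℕ) (a : ℕ → ℤ)
    (h₁ : ∀ ℓ : ℕ, ℓ.Prime → ℓ ∉ S₀ → ∀ A : ValuationSubring Qb, A.LiesOverPrime ℓ →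
      ∀ φ : GQ, A.IsFrobeniusAt φ ℓ →
        LinearMap.charpoly (ρ₁.ρ φ) = X ^ 2 - C ((a ℓ : ℤ) : A₁) * X + C ((ℓ : ℕ) : A₁))
    (h₂ : ∀ ℓ : ℕ, ℓ.Prime → ℓ ∉ S₀ → ∀ A : ValuationSubring Qb, A.LiesOverPrime ℓ →
      ∀ φ : GQ, A.IsFrobeniusAt φ ℓ →
        LinearMap.charpoly (ρ₂.ρ φ) = X ^ 2 - C ((a ℓ : ℤ) : A₂) * X + C ((ℓ : ℕ) : A₂)) :
    ∀ ℓ : ℕ, ℓ.Prime → ℓ ∉ S₀ → ∀ A : ValuationSubring Qb, A.LiesOverPrime ℓ →
      ∀ φ : GQ, A.IsFrobeniusAt φ ℓ →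
        LinearMap.charpoly (ρ₂.ρ φ) = (LinearMap.charpoly (ρ₁.ρ φ)).map ι := by
  intro ℓ hℓ hℓS A hA φ hφ
  rw [h₁ ℓ hℓ hℓS A hA φ hφ, h₂ ℓ hℓ hℓS A hA φ hφ]
  simp only [Polynomial.map_add, Polynomial.map_sub, Polynomial.map_mul, Polynomial.map_pow,
    Polynomial.map_X, map_intCast, map_natCast, Polynomial.map_intCast,
    Polynomial.map_natCast]

end Fermat.Agent.S58lib.Cmp
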