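/-
S58lib / Cmp / Final (helper3): **the two interface statements of the block `Cmp`**
(`S58lib/Interface.lean`, architect helper4):

* `cmpCharpoly : W.Δ ≠ 0 → TateFrob W T → CmpCharpoly W T`
* `absIrr_of_tateFrob : W.Δ ≠ 0 → TateFrob W T → (T p).residual.IsIrreducible → AttachedToW W ρ S₀ →
    ρ.residual.IsAbsolutelyIrreducible`   (`p ≠ 2`; the interface form `CmpRes` is in `Cmp/Res.lean`)

(the hypothesis `W.Δ ≠ 0` is necessary: for `Δ = 0` the hypothesis `TateFrob` is empty.)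

`ι : ℤ_[lam] → O` is `S29lib.S30.padicToRing`; the comparison is `Cmp.charpoly_map_eq_of_frobenius`
(weak Chebotarev), the residual statement is `Cmp.isAbsolutelyIrreducible_of_charpoly_eq` for the
field homomorphism `ℤ_[p]/p → O/𝔪`.
-/
import Fermat.Agent.S58lib.Interface
import Fermat.Agent.S58lib.Cmp.Hres
import Fermat.Agent.S29lib.S30.PadicToRing

set_option autoImplicit false
set_option linter.unusedSectionVars false
set_option linter.style.haveILetI false
set_option linter.overlappingInstances false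

noncomputable section

namespace Fermat.Agent.S58lib.Cmp

open Polynomial IsLocalRing Fermat.Agent.S58lib

/-- `padicToRing` maps the maximal ideal of `ℤ_[p]` into the maximal ideal. -/
theorem padicToRing_mem_maximalIdeal (p : ℕ) [Fact p.Prime] {O : Type} [CommRing O]
    [IsLocalRing O] [IsAdicComplete (maximalIdeal O) O] (hpO : (p : O) ∈ maximalIdeal O) :
    ∀ a ∈ maximalIdeal ℤ_[p],
      Fermat.Agent.S29lib.S30.padicToRing p (maximalIdeal O) hpO a ∈ maximalIdeal O := by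
  intro a ha
  rw [PadicInt.maximalIdeal_eq_span_p, Ideal.mem_span_singleton] at ha
  obtain ⟨b, rfl⟩ := ha
  rw [map_mul, map_natCast]
  exact Ideal.mul_mem_right _ _ hpO

/-- the exceptional set: `S₀`, `lam` and the primes of bad reduction. -/
def excSet (W : WeierstrassCurve ℤ) (S₀ : Finset ℕ) (lam : ℕ) : Finset ℕ :=
  S₀ ∪ {lam} ∪ W.Δ.natAbs.primeFactors

theorem not_mem_of_not_mem_excSet {W : WeierstrassCurve ℤ} {S₀ : Finset ℕ} {lam ℓ : ℕ}
    (h : ℓ ∉ excSet W S₀ lam) : ℓ ∉ S₀ := fun hm => h (by simp [excSet, hm])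

theorem ne_of_not_mem_excSet {W : WeierstrassCurve ℤ} {S₀ : Finset ℕ} {lam ℓ : ℕ}
    (h : ℓ ∉ excSet W S₀ lam) : ℓ ≠ lam := fun hm => h (by simp [excSet, hm])

theorem not_dvd_of_not_mem_excSet {W : WeierstrassCurve ℤ} (hΔ : W.Δ ≠ 0) {S₀ : Finset ℕ}
    {lam ℓ : ℕ} (hℓ : ℓ.Prime) (h : ℓ ∉ excSet W S₀ lam) : ¬ (ℓ : ℤ) ∣ W.Δ := by
  intro hd
  apply h
  simp only [excSet, Finset.mem_union]
  refine Or.inr (Nat.mem_primeFactors.mpr ⟨hℓ, ?_, Int.natAbs_ne_zero.mpr hΔ⟩)
  exact Int.natCast_dvd.mp hd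

/-- **Cmp (C1)**, interface form. -/
theorem cmpCharpoly (W : WeierstrassCurve ℤ) (T : TateFam) (hΔ : W.Δ ≠ 0) (hT : TateFrob W T) :
    CmpCharpoly W T := by
  intro lam _ O _ _ _ _ _ _ hlamO ρ S₀ hρ
  refine ⟨Fermat.Agent.S29lib.S30.padicToRing lam (maximalIdeal O) hlamO, ?_⟩
  haveI : IsHausdorff (maximalIdeal O) O := inferInstance
  exact charpoly_map_eq_of_frobenius _ (padicToRing_mem_maximalIdeal lam hlamO) (T lam) ρ
    (excSet W S₀ lam)
    (frobenius_hyp_of_int _ (T lam) ρ (excSet W S₀ lam) (fun ℓ => W.apOfModel ℓ)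
      (fun ℓ hℓ hℓS A hA φ hφ =>
        hT lam ℓ hℓ (ne_of_not_mem_excSet hℓS) (not_dvd_of_not_mem_excSet hΔ hℓ hℓS) A hA φ hφ)
      (fun ℓ hℓ hℓS A hA φ hφ => hρ ℓ hℓ (not_mem_of_not_mem_excSet hℓS) A hA φ hφ))

/-! ### The residual statement -/

/-- **(C4), over an arbitrary field of characteristic `p`** (instead of `ZMod p`): `ρ₀` is a
2-dimensional representation over a field `k₀` of characteristic `p ≠ 2`, irreducible, whose
Frobenius elements at the primes `ℓ ∉ S₀` have characteristic polynomial `X² - a_ℓ X + ℓ`.  Then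
every adic representation `ρ` over a local ring `O` whose residue field receives `k₀`, with the same
Frobenius characteristic polynomials, is residually absolutely irreducible. -/
theorem absIrr_of_field (p : ℕ) [hpf : Fact p.Prime] (hp2 : p ≠ 2) {k₀ : Type} [Field k₀]
    (hpk₀ : ((p : ℕ) : k₀) = 0) (ρ₀ : ResidualGaloisRep k₀) (hirr : ρ₀.IsIrreducible)
    (a : ℕ → ℤ) (S₀ : Finset ℕ)
    (h₀ : ∀ ℓ : ℕ, ℓ.Prime → ℓ ∉ S₀ → ∀ A : ValuationSubring Qb, A.LiesOverPrime ℓ →
      ∀ φ : GQ, A.IsFrobeniusAt φ ℓ →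
        LinearMap.charpoly (ρ₀.ρ φ) = X ^ 2 - C ((a ℓ : ℤ) : k₀) * X + C ((ℓ : ℕ) : k₀))
    {O : Type} [CommRing O] [IsLocalRing O] (ι : k₀ →+* ResidueField O)
    (ρ : GaloisRepAdic O)
    (h : ∀ ℓ : ℕ, ℓ.Prime → ℓ ∉ S₀ → ∀ A : ValuationSubring Qb, A.LiesOverPrime ℓ →
      ∀ φ : GQ, A.IsFrobeniusAt φ ℓ →
        LinearMap.charpoly (ρ.ρ φ) = X ^ 2 - C ((a ℓ : ℤ) : O) * X + C ((ℓ : ℕ) : O)) :
    ρ.residual.IsAbsolutelyIrreducible := by
  classical
  have hp : p.Prime := hpf.out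
  set k := ResidueField O with hk
  haveI : CharP k₀ p := (CharP.charP_iff_prime_eq_zero hp).mpr hpk₀
  -- `2 ≠ 0` in `k₀`
  have h2 : (2 : k₀) ≠ 0 := by
    intro h20
    have h3 : ((2 : ℕ) : k₀) = 0 := by exact_mod_cast h20
    rw [CharP.cast_eq_zero_iff k₀ p] at h3
    have := (Nat.prime_dvd_prime_iff_eq hp Nat.prime_two).mp h3
    exact hp2 this
  -- the residual Frobenius characteristic polynomials
  have hres : ∀ ℓ : ℕ, ℓ.Prime → ℓ ∉ S₀ → ∀ A : ValuationSubring Qb, A.LiesOverPrime ℓ →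
      ∀ φ : GQ, A.IsFrobeniusAt φ ℓ →
        LinearMap.charpoly (ρ.residual.ρ φ) =
          X ^ 2 - C ((a ℓ : ℤ) : k) * X + C ((ℓ : ℕ) : k) := by
    intro ℓ hℓ hℓS A hA φ hφ
    show LinearMap.charpoly ((ρ.ρ φ).baseChange k) = _
    rw [LinearMap.charpoly_baseChange, h ℓ hℓ hℓS A hA φ hφ, map_quad_int]
  -- the comparison over the fields
  haveI := isHausdorff_maximalIdeal_field k
  have hcmp := charpoly_map_eq_of_frobenius ι
    (fun x hx => by
      rw [IsLocalRing.maximalIdeal_eq_bot, Ideal.mem_bot] at hx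
      rw [hx, map_zero]
      exact Ideal.zero_mem _)
    (GaloisRepAdic.ofResidualGaloisRep ρ₀) (GaloisRepAdic.ofResidualGaloisRep ρ.residual) S₀
    (fun ℓ hℓ hℓS A hA φ hφ => by
      show LinearMap.charpoly (ρ.residual.ρ φ) = (LinearMap.charpoly (ρ₀.ρ φ)).map ι
      rw [hres ℓ hℓ hℓS A hA φ hφ, h₀ ℓ hℓ hℓS A hA φ hφ, map_quad_int])
  -- `det ρ₀(c) = -1`
  have hdet : LinearMap.det (ρ₀.ρ complexConjugation) = -1 := by
    haveI := isAdicComplete_maximalIdeal_field k₀
    have hp0 : ((p : ℕ) : k₀) ∈ maximalIdeal k₀ := by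
      rw [hpk₀]
      exact Ideal.zero_mem _
    exact det_complexConjugation p hp0 (GaloisRepAdic.ofResidualGaloisRep ρ₀) S₀
      (fun ℓ hℓ hℓS A hA φ hφ => ⟨_, h₀ ℓ hℓ hℓS A hA φ hφ⟩)
  exact isAbsolutelyIrreducible_of_charpoly_eq ι h2 ρ₀ hirr complexConjugation
    complexConjugation_mul_self hdet ρ.residual (fun σ => hcmp σ)

/-- the residue field of `ℤ_[p]` has characteristic `p`. -/
theorem natCast_residueField_padicInt (p : ℕ) [Fact p.Prime] :
    ((p : ℕ) : ResidueField ℤ_[p]) = 0 := by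
  have h1 : ((p : ℕ) : ResidueField ℤ_[p]) = residue ℤ_[p] (p : ℤ_[p]) :=
    (map_natCast (residue ℤ_[p]) p).symm
  rw [h1, residue_eq_zero_iff, PadicInt.maximalIdeal_eq_span_p]
  exact Ideal.mem_span_singleton_self _

/-- the field homomorphism `ℤ_[p]/p → O/𝔪` for a local ring `O` of residue characteristic `p`. -/
def residueFieldPadicHom (p : ℕ) [Fact p.Prime] {O : Type} [CommRing O] [IsLocalRing O]
    (hpO : (p : O) ∈ maximalIdeal O) : ResidueField ℤ_[p] →+* ResidueField O :=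
  haveI : CharP (ResidueField O) p :=
    (CharP.charP_iff_prime_eq_zero (Fact.out : p.Prime)).mpr (by
      have h1 : ((p : ℕ) : ResidueField O) = residue O (p : O) := (map_natCast (residue O) p).symm
      rw [h1]
      exact (residue_eq_zero_iff _).mpr hpO)
  (ZMod.castHom (dvd_refl p) (ResidueField O)).comp
    (PadicInt.residueField (p := p) : ResidueField ℤ_[p] →+* ZMod p)

/-- **Cmp (C2–C4)**, explicit form (independent of the shape of the interface `Prop`s): if the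
residual representation of `T_p` is irreducible (`p` odd) then every representation attached to `W`
over a local ring of residue characteristic `p` is residually absolutely irreducible. -/
theorem absIrr_of_tateFrob (W : WeierstrassCurve ℤ) (T : TateFam) (hΔ : W.Δ ≠ 0)
    (hT : TateFrob W T) (p : ℕ) [Fact p.Prime] (hp2 : p ≠ 2)
    (hirr : (T p).residual.IsIrreducible) {O : Type} [CommRing O] [IsLocalRing O]
    (hpO : (p : O) ∈ maximalIdeal O) (ρ : GaloisRepAdic O) (S₀ : Finset ℕ)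
    (hρ : AttachedToW W ρ S₀) : ρ.residual.IsAbsolutelyIrreducible := by
  refine absIrr_of_field p hp2 (natCast_residueField_padicInt p) (T p).residual hirr
    (fun ℓ => W.apOfModel ℓ) (excSet W S₀ p) ?_ (residueFieldPadicHom p hpO) ρ
    (fun ℓ hℓ hℓS A hA φ hφ => hρ ℓ hℓ (not_mem_of_not_mem_excSet hℓS) A hA φ hφ)
  intro ℓ hℓ hℓS A hA φ hφ
  show LinearMap.charpoly (((T p).ρ φ).baseChange (ResidueField ℤ_[p])) = _
  rw [LinearMap.charpoly_baseChange,
    hT p ℓ hℓ (ne_of_not_mem_excSet hℓS) (not_dvd_of_not_mem_excSet hΔ hℓ hℓS) A hA φ hφ,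
    map_quad_int]

end Fermat.Agent.S58lib.Cmp
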