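/-
S58lib / Cmp / Res (helper3): **the residual comparison statement for the Tate family of `W`**
(helper6's `Tate.tateFam W hΔ`): if `W[p]` is irreducible (`p` odd) then every adic representation
attached to `W` (residue characteristic `p`) is residually absolutely irreducible.

`Cmp.absIrr_of_tateFrob` (C1–C4) + `Tate.tateFam_residual_isIrreducible` (T4).
-/
import Fermat.Agent.S58lib.Cmp.Final
import Fermat.Agent.S58lib.Tate.Family

set_option autoImplicit false
set_option linter.unusedSectionVars false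

noncomputable section

namespace Fermat.Agent.S58lib.Cmp

open Polynomial IsLocalRing Fermat.Agent.S58lib

/-- **Cmp (C2–C4) for the Tate family**, explicit form. -/
theorem absIrr_of_modRepIsIrreducible (W : WeierstrassCurve ℤ) (hΔ : W.Δ ≠ 0)
    (hT : TateFrob W (Fermat.Agent.S58lib.Tate.tateFam W hΔ)) (p : ℕ) [Fact p.Prime] (hp2 : p ≠ 2)
    (hirr : W.ModRepIsIrreducible p) {O : Type} [CommRing O] [IsLocalRing O]
    (hpO : (p : O) ∈ maximalIdeal O) (ρ : GaloisRepAdic O) (S₀ : Finset ℕ)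
    (hρ : AttachedToW W ρ S₀) : ρ.residual.IsAbsolutelyIrreducible :=
  absIrr_of_tateFrob W (Fermat.Agent.S58lib.Tate.tateFam W hΔ) hΔ hT p hp2
    (Fermat.Agent.S58lib.Tate.tateFam_residual_isIrreducible W hΔ p hirr) hpO ρ S₀ hρ

/-- **Cmp (C2–C4)**, interface form (Interface v3: `CmpRes W`). -/
theorem cmpRes (W : WeierstrassCurve ℤ) (hΔ : W.Δ ≠ 0)
    (hT : TateFrob W (Fermat.Agent.S58lib.Tate.tateFam W hΔ)) : CmpRes W :=
  fun p _ hp2 hirr _ _ _ _ _ _ _ hpO ρ S₀ hρ =>
    absIrr_of_modRepIsIrreducible W hΔ hT p hp2 hirr hpO ρ S₀ hρ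

end Fermat.Agent.S58lib.Cmp
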